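import Fermat.Agent.KoksmaClass.Main
import Fermat.Agent.KoksmaClass.Dominant

/-!
# Mahler's uniform exponent

If `|P x| ≤ M(P) ^ (-w)` with `P` irreducible and `|Q x| ≤ H ^ (-w)` with `Q` of height
`H ≍ M(P)` small enough to be prime to `P`, their resultant gives `1 ≪ M(P) ^ (2 n - 1 - w)`.
-/

set_option autoImplicit false

noncomputable section

open Polynomial Filter FA.WirsingApprox FA.MahlerClass FA.KoksmaClass
open scoped Topology

namespace FA.UniformExp

/-- Every large height has a `p` with `|P x| ≤ H ^ (-w)`. -/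
def IsUniform (n : ℕ) (x w : ℝ) : Prop :=
  ∀ᶠ H : ℝ in atTop, ∃ p : Fin (n + 1) → ℤ, p ≠ 0 ∧ ‖p‖ ≤ H ∧ |polyEval p x| ≤ H ^ (-w)

/-- Mahler's uniform exponent `ŵ n`. -/
def uniformExp (n : ℕ) (x : ℝ) : EReal :=
  sSup ((fun w : ℝ => (w : EReal)) '' {w | IsUniform n x w})

theorem le_uniformExp {n : ℕ} {x w : ℝ} (h : IsUniform n x w) : (w : EReal) ≤ uniformExp n x :=
  le_sSup ⟨w, h, rfl⟩

theorem uniformExp_le {n : ℕ} {x B : ℝ} (h : ∀ w, B < w → ¬IsUniform n x w) :
    uniformExp n x ≤ B := by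
  refine sSup_le ?_
  rintro _ ⟨w, hw, rfl⟩
  exact EReal.coe_le_coe_iff.2 (not_lt.1 fun hlt => h w hlt hw)

/-- **The box principle: `n ≤ ŵ n`.** -/
theorem le_uniformExp_self {n : ℕ} (hn : 0 < n) (x : ℝ) :
    ((n : ℝ) : EReal) ≤ uniformExp n x := by
  refine EReal.ge_of_forall_gt_iff_ge.1 fun w hw => le_uniformExp ?_
  rw [EReal.coe_lt_coe_iff] at hw
  set c : ℝ := ∑ i : Fin n, |x ^ ((i : ℕ) + 1)| + 2 with hc
  have hc0 : 0 < c := by
    have : 0 ≤ ∑ i : Fin n, |x ^ ((i : ℕ) + 1)| := Finset.sum_nonneg fun _ _ => abs_nonneg _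
    linarith
  filter_upwards [eventually_ge_atTop (2 * c), (tendsto_rpow_atTop (sub_pos.2 hw)).eventually
    (eventually_ge_atTop ((2 * c) ^ n))] with H hH hH'
  have hH0 : 0 < H := by linarith
  set T := ⌊H / c⌋₊ with hT
  have h2 : 2 ≤ H / c := (le_div_iff₀ hc0).2 hH
  have hTge : H / c / 2 ≤ T := by
    have := Nat.lt_floor_add_one (H / c)
    linarith
  have hT1 : 0 < T := Nat.floor_pos.2 (by linarith)
  obtain ⟨p, hp, hpn, hpe⟩ := exists_small_polyEval hn x hT1
  refine ⟨p, hp, hpn.trans ?_, hpe.trans ?_⟩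
  · rw [mul_comm, ← le_div_iff₀ hc0]
    exact Nat.floor_le (by positivity)
  · rw [Real.rpow_neg hH0.le, one_div]
    refine inv_anti₀ (Real.rpow_pos_of_pos hH0 _) (le_trans ?_
      (pow_le_pow_left₀ (by positivity) hTge n))
    rw [div_div, mul_comm c, div_pow, le_div_iff₀ (by positivity), ← Real.rpow_natCast H,
      ← le_div_iff₀' (Real.rpow_pos_of_pos hH0 _), ← Real.rpow_sub hH0]
    exact hH'

theorem infinite_smallSet_of_isUniform {n : ℕ} {x w : ℝ} (hx : NotAlgebraic x n) (hw : 0 < w)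
    (h : IsUniform n x w) : (smallSet n x w).Infinite := by
  refine infinite_of_forall_exists fun ε hε => ?_
  obtain ⟨H, ⟨p, hp, hpH, hpe⟩, hH⟩ :=
    (h.and ((tendsto_rpow_neg_atTop hw).eventually_lt_const hε)).exists
  exact ⟨p, ⟨polyEval_ne_zero_of_notAlgebraic hx hp, hpe.trans (Real.rpow_le_rpow_of_nonpos
    (norm_pos_iff.2 hp) hpH (neg_nonpos.2 hw.le))⟩, hpe.trans_lt hH⟩

/-- `ŵ n ≤ w n`. -/
theorem uniformExp_le_mahlerExp {n : ℕ} (hn : 0 < n) {x : ℝ} (hx : NotAlgebraic x n) :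
    uniformExp n x ≤ mahlerExp n x := by
  refine sSup_le ?_
  rintro _ ⟨w, hw, rfl⟩
  rcases le_or_gt w 0 with h0 | h0
  · exact (EReal.coe_le_coe_iff.2 (h0.trans (Nat.cast_nonneg n))).trans
      (le_mahlerExp_of_forall_ne_zero (fun _ hp => polyEval_ne_zero_of_notAlgebraic hx hp) hn)
  · exact le_mahlerExp (infinite_smallSet_of_isUniform hx h0 hw)

/-- The resultant bound without the finer structure of the roots. -/
theorem crossMax_le_add {A B : Multiset ℝ} (hA : InUnit A) (hB : InUnit B) :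
    crossMax A B ≤ A.prod + B.prod := by
  have hA' := hA.prod_mem
  have hB' := hB.prod_mem
  rcases eq_or_ne A 0 with rfl | hA0
  · simp only [crossMax, Multiset.map_zero, Multiset.prod_zero]
    linarith
  rcases eq_or_ne B 0 with rfl | hB0
  · linarith [(crossMax_mem hA hB).2, hA'.1, Multiset.prod_zero (M := ℝ)]
  obtain ⟨a, A', rfl, ha⟩ := exists_min_cons hA0
  obtain ⟨b, B', rfl, hb⟩ := exists_min_cons hB0
  have hAu : InUnit A' := fun y hy => hA y (Multiset.mem_cons_of_mem hy)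
  rcases le_total a b with hab | hab
  · have hrow := row_eq (B := b ::ₘ B') (a := a) fun y hy => (Multiset.mem_cons.1 hy).elim
      (fun e => e ▸ hab) fun hy => hab.trans (hb y hy)
    have h : crossMax (a ::ₘ A') (b ::ₘ B') ≤ (b ::ₘ B').prod := by
      rw [crossMax, Multiset.map_cons, Multiset.prod_cons, hrow]
      exact mul_le_of_le_one_right hB'.1.le (crossMax_mem hAu hB).2
    linarith
  · have h : crossMax (a ::ₘ A') (b ::ₘ B') ≤ (a ::ₘ A').prod := by
      rw [crossMax]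
      refine (prod_map_le_prod_map _ (g := fun y => y) (fun y hy => (row_le_one hB (hA y hy).1
        (hA y hy).2).1) fun y hy => ?_).trans_eq (by rw [Multiset.map_id'])
      have hby : b ≤ y := (Multiset.mem_cons.1 hy).elim (fun e => e ▸ hab)
        fun hy => hab.trans (ha y hy)
      rw [Multiset.map_cons, Multiset.prod_cons, max_eq_left hby]
      exact mul_le_of_le_one_right (hA y hy).1.le (row_le_one
        (fun z hz => hB z (Multiset.mem_cons_of_mem hz)) (hA y hy).1 (hA y hy).2).2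
    linarith

/-- Two coprime small polynomials cannot both be too small. -/
theorem one_le_sum_values (x : ℝ) {n : ℕ} (hn : 1 ≤ n) :
    ∃ C : ℝ, 0 < C ∧ ∀ P Q : ℤ[X], Irreducible P → P.IsPrimitive → P.natDegree ≤ n →
      Q ≠ 0 → Q.natDegree ≤ n → mahler Q < mahler P → aeval x P ≠ 0 → aeval x Q ≠ 0 →
      1 ≤ C * mahler P ^ (2 * n - 1) * (|aeval x P| + |aeval x Q|) := by
  set K := 2 * (2 + |x|) with hK
  have hK1 : 1 ≤ K := by linarith [abs_nonneg x]
  have hK2 : (1 : ℝ) ≤ 2 + |x| := by linarith [abs_nonneg x]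
  refine ⟨K ^ (n * n) * (2 + |x|) ^ n, by positivity, fun P Q hirr hprim hPn hQ hQn hlt vP vQ => ?_⟩
  have hMP := one_le_mahler hprim.ne_zero
  have hMQ := one_le_mahler hQ
  have hPu := inUnit_dists x vP
  have hQu := inUnit_dists x vQ
  set A := (dists x P).prod
  set B := (dists x Q).prod
  have hA0 : 0 ≤ A := hPu.prod_mem.1.le
  have hB0 : 0 ≤ B := hQu.prod_mem.1.le
  have h1 : 1 ≤ K ^ (n * n) * mahler P ^ n * mahler Q ^ n * (A + B) := by
    refine (one_le_crossMax x hprim.ne_zero hQ (croots_disjoint hirr hprim hQ hlt)).trans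
      (mul_le_mul ?_ (crossMax_le_add hPu hQu) (crossMax_mem hPu hQu).1 (by positivity))
    gcongr
  have hPA : mahler P * A ≤ (2 + |x|) ^ n * |aeval x P| := (mahler_mul_prod_le x P).trans
    (mul_le_mul_of_nonneg_right (pow_le_pow_right₀ hK2 hPn) (abs_nonneg _))
  have hQB : mahler Q * B ≤ (2 + |x|) ^ n * |aeval x Q| := (mahler_mul_prod_le x Q).trans
    (mul_le_mul_of_nonneg_right (pow_le_pow_right₀ hK2 hQn) (abs_nonneg _))
  have hsplit : mahler P ^ n * mahler Q ^ n * (A + B) ≤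
      mahler P ^ (2 * n - 1) * ((2 + |x|) ^ n * (|aeval x P| + |aeval x Q|)) := by
    obtain ⟨k, rfl⟩ : ∃ k, n = k + 1 := ⟨n - 1, by omega⟩
    rw [show 2 * (k + 1) - 1 = (k + 1) + k by omega, mul_add, mul_add, mul_add,
      pow_add (mahler P) (k + 1) k]
    refine add_le_add ?_ ?_
    · calc mahler P ^ (k + 1) * mahler Q ^ (k + 1) * A
          ≤ mahler P ^ (k + 1) * mahler P ^ (k + 1) * A := by gcongr
        _ = mahler P ^ (k + 1) * mahler P ^ k * (mahler P * A) := by ring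
        _ ≤ _ := by gcongr
    · calc mahler P ^ (k + 1) * mahler Q ^ (k + 1) * B
          = mahler P ^ (k + 1) * mahler Q ^ k * (mahler Q * B) := by ring
        _ ≤ mahler P ^ (k + 1) * mahler P ^ k * ((2 + |x|) ^ (k + 1) * |aeval x Q|) := by
          gcongr
  calc (1 : ℝ) ≤ K ^ (n * n) * (mahler P ^ n * mahler Q ^ n * (A + B)) := by linarith
    _ ≤ K ^ (n * n) * (mahler P ^ (2 * n - 1) *
        ((2 + |x|) ^ n * (|aeval x P| + |aeval x Q|))) := by gcongr
    _ = _ := by ring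

/-- **Davenport and Schmidt: `ŵ n ≤ 2 n - 1`.** -/
theorem uniformExp_le_two_mul_sub_one {n : ℕ} (hn : 1 ≤ n) {x : ℝ} (hx : NotAlgebraic x n) :
    uniformExp n x ≤ ((2 * (n : ℝ) - 1 : ℝ) : EReal) := by
  refine uniformExp_le fun w hw huni => ?_
  have hn1 : (1 : ℝ) ≤ n := by exact_mod_cast hn
  have hw0 : 0 < w := by linarith
  obtain ⟨C, hC, hgood⟩ := smallR_irreducible hx hw0
    (smallR_primitive hx hw0 (infinite_smallSet_of_isUniform hx hw0 huni))
  obtain ⟨C', hC', hres⟩ := one_le_sum_values x hn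
  set δ := 2 * ((n : ℝ) + 1) with hδ
  have hδ0 : 0 < δ := by positivity
  obtain ⟨R, hR⟩ := eventually_atTop.1 (((tendsto_id.atTop_div_const hδ0).eventually huni).and
    (((tendsto_rpow_neg_atTop (show 0 < w - (2 * (n : ℝ) - 1) by linarith)).const_mul
      (C' * (C + δ ^ w))).eventually_lt_const (show C' * (C + δ ^ w) * 0 < 1 by simp)))
  obtain ⟨P, ⟨hirr, hprim, hdeg⟩, hPR, hPle⟩ := hgood R
  obtain ⟨⟨p, hp, hpH, hpe⟩, hsmall⟩ := hR _ hPR
  set M := mahler P with hM
  have hM1 : 1 ≤ M := one_le_mahler hprim.ne_zero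
  have hM0 : 0 < M := by linarith
  have hev : aeval x (polyOf p) = polyEval p x := (polyEval_eq_aeval p x).symm
  have vQ : aeval x (polyOf p) ≠ 0 := hev ▸ polyEval_ne_zero_of_notAlgebraic hx hp
  have hQ0 : polyOf p ≠ 0 := fun h => vQ (by rw [h, map_zero])
  have hlt : mahler (polyOf p) < M := by
    refine lt_of_le_of_lt (KoksmaClass.mahler_le_height (natDegree_polyOf p)) ?_
    rw [height_polyOf]
    have h := mul_le_mul_of_nonneg_left hpH (show 0 ≤ (n : ℝ) + 1 by positivity)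
    have e : ((n : ℝ) + 1) * (id M / δ) = M / 2 := by rw [hδ, id]; field_simp
    linarith
  have hP : |aeval x P| ≤ C * M ^ (-w) := by
    rw [Real.rpow_neg hM0.le, ← div_eq_mul_inv, le_div_iff₀ (Real.rpow_pos_of_pos hM0 _)]
    exact hPle
  have hQ : |aeval x (polyOf p)| ≤ δ ^ w * M ^ (-w) := by
    rw [hev]
    refine hpe.trans_eq ?_
    rw [id, Real.div_rpow hM0.le hδ0.le, Real.rpow_neg hδ0.le, div_inv_eq_mul, mul_comm]
  have h1 := hres P _ hirr hprim hdeg hQ0 (natDegree_polyOf p) hlt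
    (hx P hprim.ne_zero hdeg) vQ
  have h2 : C' * M ^ (2 * n - 1) * (|aeval x P| + |aeval x (polyOf p)|) ≤
      C' * (C + δ ^ w) * M ^ (-(w - (2 * (n : ℝ) - 1))) := by
    refine (mul_le_mul_of_nonneg_left (add_le_add hP hQ) (by positivity)).trans_eq ?_
    rw [show -(w - (2 * (n : ℝ) - 1)) = ((2 * n - 1 : ℕ) : ℝ) + -w by
        rw [Nat.cast_sub (by omega)]; push_cast; ring,
      Real.rpow_add hM0, Real.rpow_natCast]
    ring
  linarith

/-- `w n = n` gives `ŵ n = n`. -/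
theorem uniformExp_eq_of_mahlerExp_eq {n : ℕ} (hn : 1 ≤ n) {x : ℝ} (hx : NotAlgebraic x n)
    (h : mahlerExp n x = ((n : ℝ) : EReal)) : uniformExp n x = ((n : ℝ) : EReal) :=
  le_antisymm ((uniformExp_le_mahlerExp hn hx).trans h.le) (le_uniformExp_self hn x)

end FA.UniformExp
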